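import Mathlib
import Fermat.Agent.LT.T7.H816.IotaSpec
import Fermat.Agent.LT.T7.H557.DescTriv

/-!
# Row LT, tower T7, node T7.L2.1, leaf C2.4-I.6 `H816.OntoGlueC816` (helper286)

OFF-MAIN.  Adele bookkeeping: an adele `y` of `K'` which comes from `K_v` at the places over `v`,
for every place `v` of `K`, is in the image of `ι`.

`x_v` = the component at `v` of the adele chosen for `v`.  It is integral for almost all `v`:
if `w` lies over `v` then `|y_w| = |x_v|^e` with `e > 0`, `y_w` is integral for almost all `w`,
and finitely many `v` lie under a finite set of `w` (`finite_under_557` of helper557).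
No Galois hypothesis.
-/

set_option autoImplicit false

open AutomorphicForm IsDedekindDomain NumberField MeasureTheory
open scoped ComplexConjugate

noncomputable section

namespace Fermat.Agent.LT.T7.H286

open Fermat.Agent.LT.H556 Fermat.Agent.LT.H556.A0 Fermat.Agent.LT.T7
open Fermat.Agent.LT.T7.H816 Fermat.Agent.LT.T7.H557

variable {K K' : Type} [Field K] [NumberField K] [Field K'] [NumberField K'] [Algebra K K']

/-- Every finite place of `K'` lies over a finite place of `K`. -/
theorem exists_placeUnder286 (w : HeightOneSpectrum (𝓞 K')) :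
    ∃ v : HeightOneSpectrum (𝓞 K), PlaceOver K K' v w := by
  refine ⟨HeightOneSpectrum.under (𝓞 K) w, (placeOver_iff_557 _ w).2 ?_⟩
  simp only [HeightOneSpectrum.under_asIdeal]

/-- The component at a finite place. -/
theorem finHom_apply286 (v : HeightOneSpectrum (𝓞 K)) (x : Adl K) : T5.finHom v x = x.2 v := rfl

/-- The component at an infinite place. -/
theorem infHom_apply286 (v : InfinitePlace K) (x : Adl K) :
    T5.infHom v x = InfinitePlace.Completion.extensionEmbedding v (x.1 v) := rfl

/-- **Leaf C2.4-I.6 `H816.OntoGlueC816`.** -/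
theorem ontoGlueC286 (K K' : Type) [Field K] [NumberField K] [Field K'] [NumberField K']
    [Algebra K K'] : OntoGlueC816 K K' := by
  intro ι hι y hfin hinf
  classical
  choose xf hxf using hfin
  choose xi hxi using hinf
  -- the bad set of `y`
  have hy : ∀ᶠ w in Filter.cofinite, y.2 w ∈ w.adicCompletionIntegers K' := y.2.2
  have hyfin : {w : HeightOneSpectrum (𝓞 K') | y.2 w ∉ w.adicCompletionIntegers K'}.Finite := hy
  -- integrality of the components
  have hsub : {v : HeightOneSpectrum (𝓞 K) | (xf v).2 v ∉ v.adicCompletionIntegers K}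
      ⊆ {v | ∃ w ∈ hyfin.toFinset, PlaceOver K K' v w} := by
    intro v hv
    obtain ⟨w, hvw⟩ := exists_placeOver_557 (K' := K') v
    refine ⟨w, ?_, hvw⟩
    rw [Set.Finite.mem_toFinset]
    obtain ⟨e, i, he, -, hval, hcomp⟩ := hι.fin v w hvw
    have h1 : y.2 w = i ((xf v).2 v) := by
      have := hxf v w hvw
      rw [hcomp (xf v)] at this
      exact this.symm
    show y.2 w ∉ w.adicCompletionIntegers K'
    rw [h1, HeightOneSpectrum.mem_adicCompletionIntegers, hval, not_le]
    have hv' : ¬ Valued.v ((xf v).2 v) ≤ 1 := by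
      rwa [← HeightOneSpectrum.mem_adicCompletionIntegers]
    exact one_lt_pow₀ (not_le.mp hv') he.ne'
  have hint : ∀ᶠ v in Filter.cofinite, (xf v).2 v ∈ v.adicCompletionIntegers K :=
    (finite_under_557 (K := K) hyfin.toFinset).subset hsub
  obtain ⟨z, hzf, hzi⟩ : ∃ z : Adl K, (∀ v : HeightOneSpectrum (𝓞 K),
      T5.finHom v z = T5.finHom v (xf v)) ∧
      ∀ v : InfinitePlace K, T5.infHom v z = T5.infHom v (xi v) :=
    ⟨((fun v => (xi v).1 v), ⟨fun v => (xf v).2 v, hint⟩), fun _ => rfl, fun _ => rfl⟩
  refine ⟨z, ?_⟩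
  have h1 : (ι z).1 = y.1 := by
    funext w'
    have hw : T5.infHom w' (ι z) = T5.infHom w' y := by
      rw [← hxi (w'.comap (algebraMap K K')) w' rfl]
      rcases hι.inf w' with h | h
      · rw [h z, h (xi _), hzi]
      · rw [h z, h (xi _), hzi]
    rw [infHom_apply286, infHom_apply286] at hw
    exact (InfinitePlace.Completion.extensionEmbedding w').injective hw
  have h2 : (ι z).2 = y.2 := by
    apply RestrictedProduct.ext
    intro w
    obtain ⟨v, hvw⟩ := exists_placeUnder286 (K := K) w
    obtain ⟨e, i, -, -, -, hcomp⟩ := hι.fin v w hvw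
    have hw : T5.finHom w (ι z) = T5.finHom w y := by
      rw [← hxf v w hvw, hcomp z, hcomp (xf v), hzf]
    exact hw
  exact Prod.ext h1 h2

end Fermat.Agent.LT.T7.H286

end
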